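/-
GATE-E (S59) / E8.SQ / M2 NODE3 (helper92), file 2: FACTORIALITY at a closed point of the special
fibre lying on exactly ONE of three vertical components, from the typed data of the GATE-L local
contracts (helper11 `H5TypeI`, helper47 `LocTypeI`):

* the vertical primes are `f 0, f 1, f 2`; `q` uniformises the first two (`hunif0`, `hunif1`);
* at most one of them passes through `𝔫` (`hone`);
* on the third one a local generator `π` exists (`hreg3`);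
* the quotient by the vertical prime is a valuation ring at `𝔫` (`hval`).

Output: `UniqueFactorizationMonoid (Localization.AtPrime 𝔫)` (helper47 `LocTypeI.ufd_localization`).
-/
import Fermat.Agent.GL.Frame.LocTypeIq
import Fermat.Agent.GL.Frame.FrameInst

set_option autoImplicit false
set_option linter.unusedSectionVars false

noncomputable section

namespace Fermat.Agent.GE8.SQ.Node3b.Typed

open Fermat.Agent.GL.KrullHeightOne Fermat.Agent.GL.Frame.HeightOne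
open Fermat.Agent.GL.Frame.Inst Fermat.Agent.GL.Frame.LocTypeI

variable {F : Type*} [Field F] {B : Subring F} [IsFractionRing B F] [IsNoetherianRing B]
  [IsIntegrallyClosed B]

/-- **type I point on one of three vertical components ⟹ factorial local ring.** -/
theorem ufd_of_typed (vert : Finset (HtOne B)) {qB : B} (hq0 : qB ≠ 0)
    (hvert : ∀ 𝔭 : HtOne B, qB ∈ 𝔭.1 → 𝔭 ∈ vert)
    (hqv : ∀ p ∈ vert, qB ∈ p.1)
    (f : Fin 3 → HtOne B) (hf2 : ∀ p, p ∈ vert ↔ ∃ i, f i = p)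
    (hunif0 : ∀ x : F, x ∈ (V1 F (f 0)).nonunits → x / ((qB : B) : F) ∈ V1 F (f 0))
    (hunif1 : ∀ x : F, x ∈ (V1 F (f 1)).nonunits → x / ((qB : B) : F) ∈ V1 F (f 1))
    (𝔫 : Ideal B) [𝔫.IsPrime] (hq𝔫 : qB ∈ 𝔫)
    (hone : ¬ ((f 0).1 ≤ 𝔫 ∧ (f 1).1 ≤ 𝔫) ∧ ¬ ((f 1).1 ≤ 𝔫 ∧ (f 2).1 ≤ 𝔫) ∧
      ¬ ((f 0).1 ≤ 𝔫 ∧ (f 2).1 ≤ 𝔫))
    (hreg3 : (f 2).1 ≤ 𝔫 → (∀ j ∈ vert, j ≠ f 2 → ¬ j.1 ≤ 𝔫) →
      ∃ π : B, π ≠ 0 ∧ π ∈ (f 2).1 ∧ (∀ x ∈ (f 2).1, ∃ s : B, s ∉ (f 2).1 ∧ π ∣ s * x) ∧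
        (∀ 𝔮 : HtOne B, 𝔮 ≠ f 2 → 𝔮.1 ≤ 𝔫 → π ∉ 𝔮.1))
    (hval : ∀ 𝔭₀ ∈ vert, 𝔭₀.1 ≤ 𝔫 → (∀ j ∈ vert, j ≠ 𝔭₀ → ¬ j.1 ≤ 𝔫) →
      ∀ a b : B, ∃ c s : B, s ∉ 𝔫 ∧ (s * a - c * b ∈ 𝔭₀.1 ∨ s * b - c * a ∈ 𝔭₀.1)) :
    UniqueFactorizationMonoid (Localization.AtPrime 𝔫) := by
  obtain ⟨h01, h12, h02⟩ := hone
  -- a vertical prime through `𝔫`
  obtain ⟨p, hp, hp𝔫⟩ := exists_mem_vertFinset_le hq0 𝔫 hq𝔫
  have hpv : p ∈ vert := hvert p ((mem_vertFinset hq0 p).1 hp)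
  obtain ⟨i, rfl⟩ := (hf2 p).1 hpv
  -- no other vertical prime through `𝔫`
  have hbr : ∀ j ∈ vert, j ≠ f i → ¬ j.1 ≤ 𝔫 := by
    intro j hj hne hle
    obtain ⟨i', rfl⟩ := (hf2 j).1 hj
    fin_cases i <;> fin_cases i'
    · exact hne rfl
    · exact h01 ⟨hp𝔫, hle⟩
    · exact h02 ⟨hp𝔫, hle⟩
    · exact h01 ⟨hle, hp𝔫⟩
    · exact hne rfl
    · exact h12 ⟨hp𝔫, hle⟩
    · exact h02 ⟨hle, hp𝔫⟩
    · exact h12 ⟨hle, hp𝔫⟩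
    · exact hne rfl
  have hv := hval (f i) hpv hp𝔫 hbr
  fin_cases i
  · exact ufd_localization (F := F) 𝔫 hp𝔫 hq0 (hqv _ hpv) (hgen_of_unif (F := F) hq0 hunif0)
      (hother_of_hbr vert hvert 𝔫 hbr) hv
  · exact ufd_localization (F := F) 𝔫 hp𝔫 hq0 (hqv _ hpv) (hgen_of_unif (F := F) hq0 hunif1)
      (hother_of_hbr vert hvert 𝔫 hbr) hv
  · obtain ⟨π, hπne, hπ0, hgen, hother⟩ := hreg3 hp𝔫 hbr
    exact ufd_localization (F := F) 𝔫 hp𝔫 hπne hπ0 hgen hother hv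

end Fermat.Agent.GE8.SQ.Node3b.Typed
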