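/-
GATE-E (S59) / E8.SQ / M2 NODE3 (helper92), file 3: **the finite chart at level `M' q q` is
factorial at every closed point of the special fibre.**

`Bj = chartRing (R₀ A) (jK0 A (M' q q))`, `q ∤ M'`, `A | q`, at a good auxiliary level
(`q = 2 → 3 ∣ M'`, `q = 3 → 2 ∣ M'`, `r ∣ M'` prime, `r ≡ 11 mod 12`).  For every maximal ideal
`𝔫 ∋ q` of `Bj`: `UniqueFactorizationMonoid (Localization.AtPrime 𝔫)`.

Everything is a call on LANDED GATE-L producers (the proof body follows helper11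
`H5HalljK0Thm.hallj_K0_thm`, with the U3-only LOC contract replaced by factoriality):
* the dichotomy triple point / at most one component: helper47 `ClassifyK0Full.dichotomy_frame`;
* triple points: helper92/helper67 `TripleRegFinal.ufd_at_triple_chart_thm`;
* type I on `C₁`, `C₂`: `π = q` (helper11 `H5UnifK0.hunif_W1/W2`);
* type I on `C₃`: helper25/helper67 `S4InstFeed.hreg3_K0_thm`;
* `hval`: helper84 `HvalFinK0Thm.hval_binder_K0_jK0`;
* assembly: `Typed.ufd_of_typed` (helper47 `LocTypeI.ufd_localization`).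
-/
import Fermat.Agent.GE8.SQ.Node3b.Typed
import Fermat.Agent.GL.Final.H5HalljK0Thm
import Fermat.Agent.GL.Reg.TripleRegFinal
import Fermat.Agent.GL.Reg3.S4InstFeed
import Fermat.Agent.GL.Frame.FrameInstK0

set_option autoImplicit false
set_option linter.unusedSectionVars false
set_option linter.unusedVariables false

noncomputable section

namespace Fermat.Agent.GE8.SQ.Node3b.UfdJ

open Polynomial
open AlgebraicCurve ModularCurve IntermediateField IsLocalRing HahnSeries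
open Fermat.Agent.S24 Fermat.Agent.S24_helper62 Fermat.Agent.S24_helper82
open Fermat.Agent.GJ.J1 Fermat.Agent.GJ.J1.Val Fermat.Agent.GJ.HN
open Fermat.Agent.GK.AL Fermat.Agent.GK.QS Fermat.Agent.GK.FrobGlue Fermat.Agent.GL.AL
open Fermat.Agent.Common_helper32
open Fermat.Agent.GL.SmallQ
open Fermat.Agent.GL.Val.GaussK0 Fermat.Agent.GL.Val.SecondK0 Fermat.Agent.GL.Val.SecondK0Hall
open Fermat.Agent.GL.Val.ThirdK0 Fermat.Agent.GL.Val.OrthK0 Fermat.Agent.GL.Val.L1eAsmK0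
open Fermat.Agent.GL.BRingK0 Fermat.Agent.GL.Table.K0 Fermat.Agent.GL.Thick
open Fermat.Agent.GL.OldTriplesK0
open Fermat.Agent.GL.Frame.ClassifyInst Fermat.Agent.GL.Frame.ClassifyK0
open Fermat.Agent.GL.Frame.ClassifyK0Full
open Fermat.Agent.GL.Frame.HeightOne Fermat.Agent.GL.Frame.Inst
open Fermat.Agent.GL.ChartChange Fermat.Agent.GL.Gate Fermat.Agent.GL.H4OfXi Fermat.Agent.GL.LocGlue
open Fermat.Agent.GL.Final.H5 Fermat.Agent.GL.Final.H5HalljK0 Fermat.Agent.GL.Final.H5UnifK0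
open Fermat.Agent.GL.Final.H5HalljK0Thm
open Fermat.Agent.GL.Val.CuspK0 Fermat.Agent.GL.Val.CuspCoeff
open Fermat.Agent.GL.Frame.Chart Fermat.Agent.GL.BuildInst Fermat.Agent.GL.Reg3.BChartFeed
open Fermat.Agent.GL.Reg3.BCong
open Fermat.Agent.GL.Frame.InstK0

attribute [local instance] Fermat.Agent.GL.Frame.InstK0.algSubringFullC

variable (A : ValuationSubring Qb) {q : ℕ} (M' : ℕ) [NeZero M'] [NeZero q]

local notation "kA" => IsLocalRing.ResidueField A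
local notation "F₀" => modularFunctionFieldFullC (K0 A) (M' * q * q)
local notation "Fq" => modularFunctionFieldFullC (K0 A) (M' * q)
local notation "j₀" => jK0 A (M' * q * q)
local notation "αK" => ((alphaK0 A (M' * q) q : Fq →ₐ[K0 A] F₀) : Fq →+* F₀)
local notation "Bj" => chartRing (R0 A) (jK0 A (M' * q * q))

/-- transport of factoriality along an equality of subrings -/
theorem ufd_triple_transport (hq : q.Prime) (hqM : ¬ q ∣ M') (hA : A.LiesOverPrime q)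
    (hQ : HallDvd (q ^ 2) (M' * q * q))
    (h2 : q = 2 → 3 ∣ M') (h3 : q = 3 → 2 ∣ M')
    {r : ℕ} (hr : r.Prime) (hrN : r ∣ M') (hr3 : r % 3 = 2) (hr4 : r % 4 = 3)
    (Bf : Subring F₀) (hBf : Bf = chartRing (R0 A) (Fermat.Agent.GL.Val.DegBase.jC (M' * q * q) (K0 A)))
    (x : Ideal Bf) [x.IsPrime]
    (hx1 : ∀ b : Bf, (b : F₀) ∈ (RwK0 A (M' * q * q)).nonunits → b ∈ x)
    (hx2 : ∀ b : Bf, (b : F₀) ∈ (redData2QK0 A (M' * q * q) hQ).Rw.nonunits → b ∈ x) :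
    UniqueFactorizationMonoid (Localization.AtPrime x) := by
  subst hBf
  haveI : Fact q.Prime := ⟨hq⟩
  exact Fermat.Agent.GL.TripleRegFinal.ufd_at_triple_chart_thm
    (Fermat.Agent.GL.AL.exactDvd_mul M' hq hqM) hQ hqM hA h2 h3 hr hrN hr3 hr4 x hx1 hx2

set_option synthInstance.maxHeartbeats 400000 in
set_option maxHeartbeats 6400000 in
/-- **`Bj` is factorial at every closed point of the special fibre.** -/
theorem ufd_Bj (hq : q.Prime) (hqM : ¬ q ∣ M') (hA : A.LiesOverPrime q)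
    (hQ : HallDvd (q ^ 2) (M' * q * q))
    (h2 : q = 2 → 3 ∣ M') (h3 : q = 3 → 2 ∣ M')
    {r : ℕ} (hr : r.Prime) (hrN : r ∣ M') (hr3 : r % 3 = 2) (hr4 : r % 4 = 3)
    (𝔫 : Ideal Bj) (h𝔫 : 𝔫.IsMaximal) (hq𝔫 : baseB j₀ (q0 A q) ∈ 𝔫) :
    ∃ _ : 𝔫.IsPrime, UniqueFactorizationMonoid (Localization.AtPrime 𝔫) := by
  haveI : Fact q.Prime := ⟨hq⟩
  haveI h𝔫p : 𝔫.IsPrime := h𝔫.isPrime
  refine ⟨h𝔫p, ?_⟩
  have hexq : ExactDvd q (M' * q) := Fermat.Agent.GL.AL.exactDvd_mul M' hq hqM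
  have hN : M' * q * q = M' * q ^ 2 := by ring
  -- the frame
  obtain ⟨i1, i2, i3, hqB, f, hf1, hf2, hf3, hf4⟩ := frame_j_top A hq hN hqM hA hQ
  have hWinj : Function.Injective (W3 A hQ) := by
    intro a b hab
    by_contra hne
    exact incomparable_W3 A hq hN hqM hA hQ a b hne (le_of_eq hab)
  have hinj : Function.Injective f := hf4 hWinj
  -- the lift of the supersingular polynomial
  set p : (R0 A)[X] := (intSsPolyAll q).map (Int.castRingHom (R0 A)) with hpdef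
  have hp : p.map (resR0 A) = @ssPolyAll q ⟨hq⟩ kA _ (charP_residue A hq hA) :=
    have : CharP kA q := charP_residue A hq hA
    intSsPolyAll_map_map q kA (resR0 A)
  obtain ⟨J', hJ, hJ', -⟩ := Fermat.Agent.GL.BRingK0.exists_ideal_K0 hexq hqM hA h2 h3
  have hBf : ∀ x : F₀, x ∈ Bj ↔ x ∈ B3K0 M' q A hQ := fun x => by
    rw [Fermat.Agent.GL.Val.B3ChartK0.B3K0_eq_chartRing_jK0 hqM hA]
  have hqBcoe : ((baseB j₀ (q0 A q) : Bj) : F₀) = ((q : ℕ) : F₀) := by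
    exact algebraMap_q0 A (M' * q * q)
  have hαAB : ∀ a ∈ BRingK0 M' q A hexq, αK a ∈ Bj := alpha_mem_frame A M' hQ hexq hqM hBf
  have hβAB := beta_mem_frame A M' hQ hexq hqM hBf
  have hvert' : ∀ 𝔭 : HtOne Bj, baseB j₀ (q0 A q) ∈ 𝔭.1 → ∃ i, f i = 𝔭 :=
    fun 𝔭 h => (hf2 𝔭).1 ((mem_vertFinset hqB 𝔭).2 h)
  have hdich := dichotomy_frame A M' hQ hexq hqM hA h2 h3 hr hrN hr3 hr4 hJ hJ' hp
    (Fermat.Agent.GL.Frame.ClassifyC5.hB3_rdK2 A M' hQ hqM hA) hBf hαAB hβAB f (hf3 0) (hf3 1)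
    (hf3 2) hqBcoe hvert' 𝔫 h𝔫 hq𝔫
  rcases hdich with ⟨-, h0, h1, -, -⟩ | ⟨hs, hone⟩
  · -- a triple point
    have hW0 : W3 A hQ 0 = RwK0 A (M' * q * q) := rfl
    have hW1 : W3 A hQ 1 = (redData2QK0 A (M' * q * q) hQ).Rw := rfl
    refine ufd_triple_transport A M' hq hqM hA hQ h2 h3 hr hrN hr3 hr4 Bj
      (by rw [jK0_eq_jC]) 𝔫 (fun b hb => h0 ((hf3 0 b).2 (hW0 ▸ hb)))
      (fun b hb => h1 ((hf3 1 b).2 (hW1 ▸ hb)))
  · -- at most one component
    have hdN : q ^ 2 * 1 ∣ M' * q * q := by rw [mul_one, hN]; exact dvd_mul_left _ _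
    haveI : NeZero (q ^ 2 * 1) := ⟨by rw [mul_one]; exact pow_ne_zero 2 hq.ne_zero⟩
    have hjmem : j₀ ∈ Bj := subset_icRing (R0 A) {j₀} rfl
    have hgmem : Fermat.Agent.GK.Val.GaussBase.genC (K0 A) (R0 A) (M' * q * q) hdN ∈ Bj :=
      (Fermat.Agent.GL.Frame.ArithInt.isIntegral_adjoin_genC_iff (M' * q * q) (R0 A) hdN
        (one_dvd (M' * q * q)) (R0 A) _).1
        (subset_icRing (R0 A) {Fermat.Agent.GK.Val.GaussBase.genC (K0 A) (R0 A) (M' * q * q) hdN} rfl)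
    have hymem : y3K0 A (M' * q * q) q hdN (one_dvd (M' * q * q)) ∈ Bj := by
      rw [Fermat.Agent.GL.Reg3.CuspCongrK0.y3K0_eq_sub]
      exact sub_mem hgmem hjmem
    have hα : ∀ b ∈ BK0 A M', alpha2 A M' q b ∈ Bj := fun b hb => by
      rw [← BK0_eq_chartRing_jK0]; exact alpha2_mem_BK0 A b hb
    have hγ : ∀ b ∈ BK0 A M', gamma2 A M' q b ∈ Bj := fun b hb => by
      rw [← BK0_eq_chartRing_jK0]; exact gamma2_mem_BK0 A b hb
    have key := Fermat.Agent.GL.Reg3.S4Feed.hreg3_K0_thm A hdN hqM hA hq hr hrN hr3 hr4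
      (vertFinset hqB) (𝔭₀ := f 2) (hf1 2)
      (qB := baseB j₀ (q0 A q)) (jB := ⟨j₀, hjmem⟩) (yB := ⟨_, hymem⟩)
      (sB := Polynomial.aeval (⟨j₀, hjmem⟩ : Bj) (intSsPolyAll q)) hqBcoe rfl rfl rfl
      (fun 𝔭 h => (mem_vertFinset hqB 𝔭).2 h) hα hγ
    -- the congruence
    have hcongr : Polynomial.aeval (⟨j₀, hjmem⟩ : Bj) (intSsPolyAll q) ∈ 𝔫 →
        resHom αK (BRingK0 M' q A hexq) Bj hαAB
          (p.eval₂ (cstK0 M' q A hexq) (jK0B M' q A hexq)) ∈ 𝔫 := by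
      intro hsB
      set φ : R0 A →+* Bj :=
        (resHom αK (BRingK0 M' q A hexq) Bj hαAB).comp (cstK0 M' q A hexq) with hφ
      have hjj : resHom αK (BRingK0 M' q A hexq) Bj hαAB (jK0B M' q A hexq) =
          (⟨j₀, hjmem⟩ : Bj) := Subtype.ext (resHom_alpha_jK0B A M' hexq Bj hαAB)
      have e1 : resHom αK (BRingK0 M' q A hexq) Bj hαAB
          (p.eval₂ (cstK0 M' q A hexq) (jK0B M' q A hexq)) =
          p.eval₂ φ (⟨j₀, hjmem⟩ : Bj) := by
        rw [Polynomial.hom_eval₂, hjj]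
      have e2 : Polynomial.aeval (⟨j₀, hjmem⟩ : Bj) (intSsPolyAll q) =
          ((intSsPolyAll q).map (Int.castRingHom (R0 A))).eval₂ φ (⟨j₀, hjmem⟩ : Bj) := by
        rw [Polynomial.eval₂_map, Polynomial.aeval_def]
        congr 1
        exact RingHom.ext_int _ _
      rw [e1]
      rw [e2] at hsB
      exact hsB
    have hreg3 := key 𝔫 h𝔫 ⟨hq𝔫, fun h => hs (hcongr h)⟩
    -- `hval`
    have hWj' : ∀ p ∈ vertFinset hqB, ∃ i, (V1 F₀ p : ValuationSubring F₀) = W3 A hQ i := by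
      intro p hp
      obtain ⟨i, rfl⟩ := (hf2 p).1 hp
      exact ⟨i, hf1 i⟩
    have hval := Fermat.Agent.GL.Final.HvalFinK0Thm.hval_binder_K0_jK0 (hQ := hQ) hqM hA h2 h3
      (Fermat.Agent.GL.Frame.InstAdapt.isChartRing_chartRing _) (vertFinset hqB) hWj'
      (fun _ => True) 𝔫 h𝔫 trivial
    -- `q` uniformises `w₁`, `w₂`
    have hunif0 := hunif_W1 A (M' * q * q) hq hA (f 0) (hf1 0) hqBcoe
    have hunif1 := hunif_W2 A (M' * q * q) hq hA hQ (f 1) (hf1 1) hqBcoe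
    exact Fermat.Agent.GE8.SQ.Node3b.Typed.ufd_of_typed (F := F₀) (vertFinset hqB) hqB
      (fun 𝔭 h => (mem_vertFinset hqB 𝔭).2 h) (fun p hp => (mem_vertFinset hqB p).1 hp)
      f hf2 hunif0 hunif1 𝔫 hq𝔫 hone hreg3 hval

end Fermat.Agent.GE8.SQ.Node3b.UfdJ
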