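/-
GATE-E (S59) / E8.SQ / M2 NODE3 (helper92), file 4: **the chart at infinity at level `M' q q` is
factorial at every cuspidal closed point of the special fibre.**

`Bji = chartRing (R₀ A) (jK0 A (M' q q))⁻¹`, `q ∤ M'`, `A | q`, `q = 2 → 3 ∣ M'`, `q = 3 → 2 ∣ M'`.
For every maximal ideal `𝔫 ∋ q, 1/j` of `Bji`: `UniqueFactorizationMonoid (Localization.AtPrime 𝔫)`.

The proof body follows helper56 `H5HalljiK0.hallji_K0` (LANDED GATE-L producers only):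
* one component through a cusp: helper42 `CuspPointsK0.hone_K0_jK0`;
* `π = q` on `C₁`, `C₂`: helper11 `H5UnifK0.hunif_W1/W2`;
* cusps of `C₃`: helper50 `Reg3.exists_vertPrime_caseC_all` + helper16
  `CuspSpec.valuation_genC_inv_eq_Bji`;
* `hval`: helper84 `HvalCuspK0.hvali_binder_K0_jK0`;
* assembly: `Typed.ufd_of_typed`.
-/
import Fermat.Agent.GE8.SQ.Node3b.Typed
import Fermat.Agent.GL.Final.H5HalljiK0Thm

set_option autoImplicit false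
set_option linter.unusedSectionVars false
set_option linter.unusedVariables false

noncomputable section

namespace Fermat.Agent.GE8.SQ.Node3b.UfdJi

open AlgebraicCurve ModularCurve Polynomial IntermediateField
open Fermat.Agent.GL.ChartChange Fermat.Agent.GL.Gate Fermat.Agent.GL.GaussAt
open Fermat.Agent.GL.H4OfXi
open Fermat.Agent.GK.AL Fermat.Agent.GL.AL Fermat.Agent.GK.MultiVal
open Fermat.Agent.GL.Val.GaussK0 Fermat.Agent.GL.Val.SecondK0 Fermat.Agent.GL.Val.SecondK0Hall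
open Fermat.Agent.GL.Val.ThirdK0 Fermat.Agent.GL.Val.OrthK0 Fermat.Agent.GL.Val.L1eAsmK0
open Fermat.Agent.GL.Val.CuspK0 Fermat.Agent.GL.Val.CuspCoeff
open Fermat.Agent.GK.Val.GaussBase
open Fermat.Agent.GL.Frame.Inst Fermat.Agent.GL.Frame.HeightOne Fermat.Agent.GL.LocGlue
open Fermat.Agent.GL.Frame.InstVal
open Fermat.Agent.GL.Final.H5Hallji
open Fermat.Agent.Common_helper32

variable (A : ValuationSubring Qb) {q : ℕ} (M' : ℕ) [NeZero M'] [NeZero q]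

local notation "F₀" => modularFunctionFieldFullC (K0 A) (M' * q * q)
local notation "j₀" => jK0 A (M' * q * q)
local notation "Bji" => chartRing (R0 A) (jK0 A (M' * q * q))⁻¹

set_option synthInstance.maxHeartbeats 400000 in
set_option maxHeartbeats 6400000 in
/-- **`Bji` is factorial at every cuspidal closed point of the special fibre.** -/
theorem ufd_Bji (hq : q.Prime) (hqM : ¬ q ∣ M') (hA : A.LiesOverPrime q)
    (hQ : HallDvd (q ^ 2) (M' * q * q))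
    (h2 : q = 2 → 3 ∣ M') (h3 : q = 3 → 2 ∣ M')
    (𝔫 : Ideal Bji) (h𝔫 : 𝔫.IsMaximal) (hq𝔫 : baseB j₀⁻¹ (q0 A q) ∈ 𝔫)
    (hgen : (isChartRing_Bji A M').gen ∈ 𝔫) :
    ∃ _ : 𝔫.IsPrime, UniqueFactorizationMonoid (Localization.AtPrime 𝔫) := by
  haveI : Fact q.Prime := ⟨hq⟩
  haveI h𝔫p : 𝔫.IsPrime := h𝔫.isPrime
  refine ⟨h𝔫p, ?_⟩
  -- the frames
  obtain ⟨-, ⟨i1, i2, i3, hqB, f', hf1', hf2'⟩⟩ := exists_two_frames_K0 A M' hq hqM hA hQ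
  have hf1'' : ∀ i, (V1 F₀ (f' i) : ValuationSubring F₀) = W3 A hQ i := hf1'
  have hf2'' : ∀ p, p ∈ vertFinset hqB ↔ ∃ i, f' i = p := hf2'
  -- arithmetic of the base
  have hdvr := isDiscreteValuationRing_R0 A hq hA
  have hN : M' * q * q = M' * q ^ 2 := by ring
  have hq2 : q ^ 2 * 1 ∣ M' * q * q := by rw [mul_one, hN]; exact dvd_mul_left _ _
  have : NeZero (q ^ 2 * 1) := ⟨by rw [mul_one]; exact pow_ne_zero 2 hq.ne_zero⟩
  have hqF : algebraMap (R0 A) F₀ (q0 A q) = ((q : ℕ) : F₀) :=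
    Fermat.Agent.GL.Final.H5UnifK0.algebraMap_q0 A (M' * q * q)
  have hqBcoe : ((((isChartRing_Bji A M').toRingHom (q0 A q) : Bji)) : F₀) =
      ((q : ℕ) : F₀) := hqF
  have hqBcoe' : ((baseB j₀⁻¹ (q0 A q) : Bji) : F₀) = ((q : ℕ) : F₀) := hqF
  have hinc := incomparable_W3 A hq hN hqM hA hQ
  have hWne : ∀ a b : Fin 3, a ≠ b → f' a ≠ f' b := by
    intro a b hab h
    apply hinc a b hab
    rw [← hf1'' a, ← hf1'' b, h]
  have hWji' : ∀ p ∈ vertFinset hqB, ∃ i, V1 F₀ p = W3 A hQ i := by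
    intro p hp
    obtain ⟨i, rfl⟩ := (hf2'' p).1 hp
    exact ⟨i, hf1'' i⟩
  -- at most one vertical component through a cusp
  have hone : ¬ ((f' 0).1 ≤ 𝔫 ∧ (f' 1).1 ≤ 𝔫) ∧ ¬ ((f' 1).1 ≤ 𝔫 ∧ (f' 2).1 ≤ 𝔫) ∧
      ¬ ((f' 0).1 ≤ 𝔫 ∧ (f' 2).1 ≤ 𝔫) :=
    Fermat.Agent.GL.Frame.CuspPointsK0.hone_K0_jK0 A M' hQ
      (Fermat.Agent.GL.W3Table.exactDvd_level hq hqM) hqM hA (isChartRing_Bji A M')
      (f' 0).1 (f' 1).1 (f' 2).1
      (mem_of_V1_eq' (f' 0) _ (hf1'' 0)) (mem_of_V1_eq' (f' 1) _ (hf1'' 1))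
      (mem_of_V1_eq' (f' 2) _ (hf1'' 2)) 𝔫 hgen
  -- `q` uniformises `w₁`, `w₂`
  have hunif0 := Fermat.Agent.GL.Final.H5UnifK0.hunif_W1 A (M' * q * q) hq hA (f' 0) (hf1'' 0)
    hqBcoe'
  have hunif1 := Fermat.Agent.GL.Final.H5UnifK0.hunif_W2 A (M' * q * q) hq hA hQ (f' 1)
    (hf1'' 1) hqBcoe'
  -- REG3 at the cusps of `C₃`
  have hreg3 : (f' 2).1 ≤ 𝔫 → (∀ j ∈ vertFinset hqB, j ≠ f' 2 → ¬ j.1 ≤ 𝔫) →
      ∃ π : Bji, π ≠ 0 ∧ π ∈ (f' 2).1 ∧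
        (∀ x ∈ (f' 2).1, ∃ s : Bji, s ∉ (f' 2).1 ∧ π ∣ s * x) ∧
        (∀ 𝔮 : HtOne Bji, 𝔮 ≠ f' 2 → 𝔮.1 ≤ 𝔫 → π ∉ 𝔮.1) := by
    intro h2' hbr
    have h3' : ∀ b : Bji, (b : F₀) ∈ (Rw3K0 A (M' * q * q) q).nonunits → b ∈ 𝔫 :=
      fun b hb => h2' (mem_of_V1_eq' (f' 2) _ (hf1'' 2) b hb)
    have h12 : ∀ 𝔮 : HtOne Bji, 𝔮.1 ≤ 𝔫 →
        V1 F₀ 𝔮 ≠ RwK0 A (M' * q * q) ∧ V1 F₀ 𝔮 ≠ (redData2QK0 A (M' * q * q) hQ).Rw := by
      intro 𝔮 hle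
      refine ⟨fun h => ?_, fun h => ?_⟩
      · have h0 : 𝔮 = f' 0 := htOne_eq_of_V1_eq (h.trans (hf1'' 0).symm)
        rw [h0] at hle
        exact hbr (f' 0) ((hf2'' _).2 ⟨0, rfl⟩) (hWne 0 2 (by decide)) hle
      · have h0 : 𝔮 = f' 1 := htOne_eq_of_V1_eq (h.trans (hf1'' 1).symm)
        rw [h0] at hle
        exact hbr (f' 1) ((hf2'' _).2 ⟨1, rfl⟩) (hWne 1 2 (by decide)) hle
    refine Fermat.Agent.GL.Reg3.exists_vertPrime_caseC_all (B := Bji) A hq2 hN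
      hqM hA hq 𝔫 (𝔭₀ := f' 2) (hf1'' 2) h2' ?_ (aB := (isChartRing_Bji A M').gen) rfl hgen ?_
    · intro 𝔮 hne hle hmem
      have h1 : ((q : ℕ) : Bji) = baseB j₀⁻¹ (q0 A q) :=
        Subtype.ext (by rw [SubringClass.coe_natCast, coe_baseB, hqF])
      rw [h1] at hmem
      exact hbr 𝔮 ((mem_vertFinset hqB 𝔮).2 hmem) hne hle
    · intro 𝔮 _ hle _
      rw [genC_congr (K0 A) (R0 A) (M' * q * q) (mul_one (q ^ 2)) hq2
        (Fermat.Agent.GL.CuspSpec.hd_Bji M')]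
      exact Fermat.Agent.GL.CuspSpec.valuation_genC_inv_eq_Bji A M' hq hqM hA hQ 𝔫 hgen h3' h12 𝔮
        hle
  -- `hval` at the cusps
  have hval := Fermat.Agent.GL.Final.HvalCuspK0.hvali_binder_K0_jK0 (hQ := hQ) hqM hA h2 h3
    (isChartRing_Bji A M') (vertFinset hqB) hWji' (fun _ => True) 𝔫 h𝔫 ⟨trivial, hgen⟩
  exact Fermat.Agent.GE8.SQ.Node3b.Typed.ufd_of_typed (F := F₀) (vertFinset hqB) hqB
    (fun 𝔭 h => (mem_vertFinset hqB 𝔭).2 h) (fun p hp => (mem_vertFinset hqB p).1 hp)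
    f' hf2'' hunif0 hunif1 𝔫 hq𝔫 hone hreg3 hval

end Fermat.Agent.GE8.SQ.Node3b.UfdJi
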