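/-
GATE-E (S59) / E8.SQ / M2 NODE3 (helper92), file 5: **the component lemma**.

Level `N = M' q q`, `q ∤ M'`, `A | q`, good auxiliary level.  `W = W3 A hQ i` one of the three
vertical valuations of `F₀ = K₀(X₀(N))`, `ρ : W →+* Fb` ANY ring homomorphism with kernel `𝔪_W`
sending the constants `R₀` into the constants `k` of a field extension `Fb / k` (`k` the residue
field of `A`).  Then for every place `Q` of `Fb / k` and every `u₀ ∈ F₀ˣ` which is a unit for the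
three vertical valuations and `m`-divisible over `ℚ̄`:  `m ∣ ord_Q (ρ u₀)`.

Proof: `Q` is centred on the finite chart `Bj` (if `ρ j ∈ O_Q`) or at a cusp of the chart at
infinity `Bji`; both are factorial at the centre (`UfdJ.ufd_Bj`, `UfdJi.ufd_Bji`); `hord` is the
three-unit hypothesis at the vertical primes and helper11's `hord_horizontal` at the horizontal
ones; conclude by `Abs.dvd_ord_of_forall_ufd`.
-/
import Fermat.Agent.GE8.SQ.Node3b.Abs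
import Fermat.Agent.GE8.SQ.Node3b.UfdJ
import Fermat.Agent.GE8.SQ.Node3b.UfdJi
import Fermat.Agent.GL.Frame.HorizHord

set_option autoImplicit false
set_option linter.unusedSectionVars false
set_option linter.unusedVariables false

noncomputable section

namespace Fermat.Agent.GE8.SQ.Node3b.Comp

open AlgebraicCurve ModularCurve IsLocalRing
open Fermat.Agent.GL.KrullHeightOne Fermat.Agent.GL.Frame.HeightOne Fermat.Agent.GL.Frame.Kummer
open Fermat.Agent.GL.Frame.Inst Fermat.Agent.GL.Frame.InstK0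
open Fermat.Agent.GL.Val.GaussK0 Fermat.Agent.GL.Val.SecondK0 Fermat.Agent.GL.Val.SecondK0Hall
open Fermat.Agent.GL.Val.ThirdK0 Fermat.Agent.GL.Val.OrthK0 Fermat.Agent.GL.Val.L1eAsmK0
open Fermat.Agent.GL.GaussAt
open Fermat.Agent.GL.Frame.HorizDiv Fermat.Agent.GL.Frame.HorizHord
open Fermat.Agent.GL.Final.H5Hallji Fermat.Agent.GL.Final.H5UnifK0
open Fermat.Agent.GJ.KumGroup
open Fermat.Agent.GK.AL Fermat.Agent.GL.AL
open Fermat.Agent.Common_helper32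
open Fermat.Agent.GB.A4.ChartStep

attribute [local instance] Fermat.Agent.GL.Frame.InstK0.algSubringFullC

variable (A : ValuationSubring Qb) {q : ℕ} (M' : ℕ) [NeZero M'] [NeZero q]

local notation "kA" => IsLocalRing.ResidueField A
local notation "F₀" => modularFunctionFieldFullC (K0 A) (M' * q * q)
local notation "j₀" => jK0 A (M' * q * q)

/-! ### `hord` at every height-one prime of a chart -/

/-- **`hord` on a chart ring carrying the three-component frame.** -/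
theorem hord_chart (hq : q.Prime) (hA : A.LiesOverPrime q) (hQ : HallDvd (q ^ 2) (M' * q * q))
    (t : F₀) [IsFractionRing (chartRing (R0 A) t) F₀] [IsNoetherianRing (chartRing (R0 A) t)]
    [IsIntegrallyClosed (chartRing (R0 A) t)] (hqB : baseB t (q0 A q) ≠ 0)
    (f : Fin 3 → HtOne (chartRing (R0 A) t)) (hf1 : ∀ i, V1 F₀ (f i) = W3 A hQ i)
    (hf2 : ∀ p, p ∈ vertFinset hqB ↔ ∃ i, f i = p)
    (m : ℕ) (u₀ : F₀ˣ)
    (hu : ∀ i, (u₀ : F₀) ∈ W3 A hQ i ∧ (u₀ : F₀)⁻¹ ∈ W3 A hQ i)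
    (hK : Units.map (mapK0Bar A (M' * q * q) : _ →* FK (M' * q * q)) u₀ ∈
      pDivUnits Kb (FK (M' * q * q)) m)
    (𝔭 : HtOne (chartRing (R0 A) t)) :
    ∃ z : F₀, z ≠ 0 ∧ UnitAt 𝔭 ((u₀ : F₀) * z ^ m) := by
  by_cases hq𝔭 : baseB t (q0 A q) ∈ 𝔭.1
  · obtain ⟨i, rfl⟩ := (hf2 𝔭).1 ((mem_vertFinset hqB 𝔭).2 hq𝔭)
    refine hord_of_unitAt m ?_
    unfold UnitAt
    rw [hf1 i]
    exact hu i
  · refine hord_horizontal A (M' * q * q) m u₀ hK 𝔭 ?_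
    refine algebraMap_K0_mem_of_baseRing A hq hA (algebraMap (K0 A) F₀) (V1 F₀ 𝔭) ?_ ?_
    · intro c hc
      exact algebraMap_mem_V1 𝔭 (baseB t (⟨c, hc⟩ : R0 A))
    · have h1 := inv_algebraMap_mem_V1 (F := F₀) 𝔭 hq𝔭
      have e : algebraMap (chartRing (R0 A) t) F₀ (baseB t (q0 A q)) = (q : F₀) :=
        algebraMap_q0 A (M' * q * q)
      rw [e] at h1
      exact h1

/-! ### the component lemma -/

set_option synthInstance.maxHeartbeats 400000 in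
set_option maxHeartbeats 6400000 in
/-- **the component lemma**: `m ∣ ord_Q (ρ u₀)` at EVERY place `Q` of the residue function field
of the `i`-th vertical component. -/
theorem dvd_ord_component (hq : q.Prime) (hqM : ¬ q ∣ M') (hA : A.LiesOverPrime q)
    (hQ : HallDvd (q ^ 2) (M' * q * q))
    (h2 : q = 2 → 3 ∣ M') (h3 : q = 3 → 2 ∣ M')
    {r : ℕ} (hr : r.Prime) (hrN : r ∣ M') (hr3 : r % 3 = 2) (hr4 : r % 4 = 3)
    (i : Fin 3) {Fb : Type*} [Field Fb] [Algebra kA Fb]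
    (ρ : ↥(W3 A hQ i) →+* Fb)
    (hρ : ∀ x : ↥(W3 A hQ i), ρ x = 0 ↔ (x : F₀) ∈ (W3 A hQ i).nonunits)
    (hconst : ∀ (c : R0 A) (h : algebraMap (R0 A) F₀ c ∈ W3 A hQ i),
      ρ ⟨_, h⟩ ∈ (algebraMap kA Fb).range)
    (Q : Place kA Fb) (m : ℕ) (u₀ : F₀ˣ)
    (hu : ∀ i', (u₀ : F₀) ∈ W3 A hQ i' ∧ (u₀ : F₀)⁻¹ ∈ W3 A hQ i')
    (hK : Units.map (mapK0Bar A (M' * q * q) : _ →* FK (M' * q * q)) u₀ ∈
      pDivUnits Kb (FK (M' * q * q)) m) :
    (m : ℤ) ∣ Q.ord (ρ ⟨(u₀ : F₀), (hu i).1⟩) := by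
  have hN : M' * q * q = M' * q ^ 2 := by ring
  -- constants go to `O_Q`
  have hWover : ∀ a : K0 A, algebraMap (K0 A) F₀ a ∈ W3 A hQ i ↔ a ∈ R0 A :=
    over_W3 A hq hN hqM hA hQ i
  have hR : ∀ c : R0 A, ∃ h : algebraMap (R0 A) F₀ c ∈ W3 A hQ i,
      ρ ⟨_, h⟩ ∈ Q.toValuationSubring := by
    intro c
    have h : algebraMap (R0 A) F₀ c ∈ W3 A hQ i := (hWover (c : K0 A)).2 c.2
    obtain ⟨a, ha⟩ := hconst c h
    exact ⟨h, ha ▸ Q.algebraMap_mem' a⟩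
  -- `j` is a unit of `W`
  have hG := isGaussAt_W3 A hQ i
  have hjW : j₀ ∈ W3 A hQ i := hG.1
  have hjv : (W3 A hQ i).valuation j₀ = 1 := by
    have := hG.2 Polynomial.X ⟨1, by rw [Polynomial.coeff_X_one]; exact isUnit_one⟩
    simpa using this
  have hjW' : j₀⁻¹ ∈ W3 A hQ i := (mem_of_valuation_eq_one _ hjv).2
  have hj0 : j₀ ≠ 0 := jK0_ne_zero A
  by_cases hτ : ρ ⟨j₀, hjW⟩ ∈ Q.toValuationSubring
  · -- the finite chart
    obtain ⟨i1, i2, i3, hqB, f, hf1, hf2, hf3, hf4⟩ := frame_j_top A hq hN hqM hA hQ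
    have hBW : ∀ b : chartRing (R0 A) j₀, (b : F₀) ∈ W3 A hQ i := by
      intro b
      have h1 : (b : F₀) ∈ V1 F₀ (f i) := algebraMap_mem_V1 (f i) b
      rw [hf1 i] at h1
      exact h1
    refine Fermat.Agent.GE8.SQ.Node3b.Abs.dvd_ord_of_forall_ufd (R := R0 A) {j₀} (W3 A hQ i) hBW
      ρ hρ Q hR (fun x hx => ?_) (fun 𝔪 h𝔪 hc => ?_) m (u₀ : F₀) u₀.ne_zero (hu i).1 (hu i).2
      (hord_chart A M' hq hA hQ j₀ hqB f hf1 hf2 m u₀ hu hK)
    · rw [Set.mem_singleton_iff] at hx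
      subst hx
      exact ⟨hjW, hτ⟩
    · refine Fermat.Agent.GE8.SQ.Node3b.UfdJ.ufd_Bj A M' hq hqM hA hQ h2 h3 hr hrN hr3 hr4 𝔪 h𝔪
        (hc _ ?_)
      have hmem : baseB j₀ (q0 A q) ∈ (f i).1 :=
        (mem_vertFinset hqB (f i)).1 ((hf2 (f i)).2 ⟨i, rfl⟩)
      have h0 : ρ ⟨((baseB j₀ (q0 A q) : chartRing (R0 A) j₀) : F₀), hBW _⟩ = 0 :=
        (hρ _).2 ((hf3 i _).1 hmem)
      rw [h0]
      exact (ValuationSubring.mem_nonunits_iff _).2 (by rw [map_zero]; exact zero_lt_one)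
  · -- the chart at infinity, at a cusp
    obtain ⟨i1, i2, i3, hqB, f, hf1, hf2, hf3, hf4⟩ := frame_jinv_top A hq hN hqM hA hQ
    have hBW : ∀ b : chartRing (R0 A) j₀⁻¹, (b : F₀) ∈ W3 A hQ i := by
      intro b
      have h1 : (b : F₀) ∈ V1 F₀ (f i) := algebraMap_mem_V1 (f i) b
      rw [hf1 i] at h1
      exact h1
    -- `ρ (1/j) = (ρ j)⁻¹ ∈ 𝔪_Q`
    have hinv : ρ ⟨j₀⁻¹, hjW'⟩ = (ρ ⟨j₀, hjW⟩)⁻¹ := by
      have h1 : (⟨j₀, hjW⟩ : ↥(W3 A hQ i)) * ⟨j₀⁻¹, hjW'⟩ = 1 :=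
        Subtype.ext (mul_inv_cancel₀ hj0)
      have h2 := congrArg ρ h1
      rw [map_mul, map_one] at h2
      exact eq_inv_of_mul_eq_one_right h2
    have hτ' : ρ ⟨j₀⁻¹, hjW'⟩ ∈ Q.toValuationSubring.nonunits := by
      rw [hinv, ValuationSubring.mem_nonunits_iff, map_inv₀]
      have h1 : ¬ Q.toValuationSubring.valuation (ρ ⟨j₀, hjW⟩) ≤ 1 := fun h =>
        hτ ((Q.toValuationSubring.valuation_le_one_iff _).1 h)
      exact inv_lt_one_of_one_lt₀ (not_le.1 h1)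
    refine Fermat.Agent.GE8.SQ.Node3b.Abs.dvd_ord_of_forall_ufd (R := R0 A) {j₀⁻¹} (W3 A hQ i)
      hBW ρ hρ Q hR (fun x hx => ?_) (fun 𝔪 h𝔪 hc => ?_) m (u₀ : F₀) u₀.ne_zero (hu i).1
      (hu i).2 (hord_chart A M' hq hA hQ j₀⁻¹ hqB f hf1 hf2 m u₀ hu hK)
    · rw [Set.mem_singleton_iff] at hx
      subst hx
      exact ⟨hjW', Q.toValuationSubring.nonunits_le hτ'⟩
    · refine Fermat.Agent.GE8.SQ.Node3b.UfdJi.ufd_Bji A M' hq hqM hA hQ h2 h3 𝔪 h𝔪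
        (hc _ ?_) (hc _ ?_)
      · have hmem : baseB j₀⁻¹ (q0 A q) ∈ (f i).1 :=
          (mem_vertFinset hqB (f i)).1 ((hf2 (f i)).2 ⟨i, rfl⟩)
        have h0 : ρ ⟨((baseB j₀⁻¹ (q0 A q) : chartRing (R0 A) j₀⁻¹) : F₀), hBW _⟩ = 0 :=
          (hρ _).2 ((hf3 i _).1 hmem)
        rw [h0]
        exact (ValuationSubring.mem_nonunits_iff _).2 (by rw [map_zero]; exact zero_lt_one)
      · exact hτ'

end Fermat.Agent.GE8.SQ.Node3b.Comp
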