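/-
GATE-E (S59) / E8.SQ / M2 NODE3 (helper92), file 6: **assembly** — the three-component twin of
helper28's `GB.A.FP.NodeHyp` at level `N = M' q q` (`q ∤ M'`, `A | q`).

* `TriUnit`   : `u` is a unit for the THREE Gauss valuations `w₁, w₂ = w₁ ∘ W_{q²}, w₃` (cusp
                `1/(qM')`) of `F_N = ℚ̄(X₀(N))`: `R₁ = redDataBar N A`, `R₂ = redData2Q N A hQ`,
                `R₃ = redData3 N A q`;
* `NodeHyp3`  : an `I_A`-fixed `m`-divisible unit which is a `TriUnit` has its three reductions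
                `m`-divisible, in `FresBar N A`, `FresBar N A`, `FresCusp N A (cusp3 N q)`;
* `rhoF1/2/3` : the three reductions on the valuation rings over `K₀`, with values in these fields;
* **`nodeHyp3`** : `NodeHyp3` at every good auxiliary level (`q = 2 → 3 ∣ M'`, `q = 3 → 2 ∣ M'`,
                an auxiliary prime `r ∣ M'`, `r ≡ 11 mod 12`), `m` ARBITRARY.
-/
import Fermat.Agent.GE8.SQ.Node3b.Comp
import Fermat.Agent.GB.A.FP
import Fermat.Agent.GL.Red.RatLiftK0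
import Fermat.Agent.GL.Fibre.RedInC

set_option autoImplicit false
set_option linter.unusedSectionVars false
set_option linter.unusedVariables false

noncomputable section

namespace Fermat.Agent.GE8.SQ.Node3b

open ModularCurve IsLocalRing AlgebraicCurve
open Fermat.Agent.S24
open Fermat.Agent.GL.Val.GaussK0 Fermat.Agent.GL.Val.SecondK0 Fermat.Agent.GL.Val.SecondK0Hall
open Fermat.Agent.GL.Val.ThirdK0 Fermat.Agent.GL.Val.L1eAsmK0 Fermat.Agent.GL.Table.K0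
open Fermat.Agent.GL.Local.InertiaField
open Fermat.Agent.GJ.KumGroup Fermat.Agent.GJ.J1 Fermat.Agent.GJ.J1.Val
open Fermat.Agent.GJ.Kum.KumType
open Fermat.Agent.GK.AL Fermat.Agent.GL.AL Fermat.Agent.GL.W3 Fermat.Agent.GL.CuspVal
open Fermat.Agent.GK.UqKronecker
open Fermat.Agent.Common_helper32
open Fermat.Agent.GL.RedInC
open Fermat.Agent.GB.A.FP

local notation "GQ" => (AlgebraicClosure ℚ ≃ₐ[ℚ] AlgebraicClosure ℚ)

/-! ### the statement -/

section Stmt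

variable {N : ℕ} [NeZero N] {q : ℕ} (A : ValuationSubring Kb) (hQ : HallDvd (q ^ 2) N)

/-- `u` is a unit of the THREE Gauss valuation rings `Rw₁`, `Rw₂`, `Rw₃` of `F_N` at `A`. -/
def TriUnit (u : (FK N)ˣ) : Prop :=
  ((u : FK N) ∈ (redDataBar N A).Rw ∧ ((u⁻¹ : (FK N)ˣ) : FK N) ∈ (redDataBar N A).Rw) ∧
    ((u : FK N) ∈ (redData2Q N A hQ).Rw ∧ ((u⁻¹ : (FK N)ˣ) : FK N) ∈ (redData2Q N A hQ).Rw) ∧
    ((u : FK N) ∈ (redData3 N A q).Rw ∧ ((u⁻¹ : (FK N)ˣ) : FK N) ∈ (redData3 N A q).Rw)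

/-- **(NODE3)**: for an `I_A`-fixed `m`-divisible unit which is a unit for the three Gauss
valuations, the three reductions are `m`-divisible units of the residue function fields. -/
def NodeHyp3 (m : ℕ) : Prop :=
  ∀ u : pDivUnits Kb (FK N) m,
    (∀ σ ∈ A.inertiaSubgroupIn ℚ, galUnits N σ (u : (FK N)ˣ) = (u : (FK N)ˣ)) →
    ∀ hu : TriUnit A hQ (u : (FK N)ˣ),
      redUnit (redDataBar N A) (u : (FK N)ˣ) hu.1.1 hu.1.2 ∈
          pDivUnits (ResidueField A) (FresBar N A) m ∧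
        redUnit (redData2Q N A hQ) (u : (FK N)ˣ) hu.2.1.1 hu.2.1.2 ∈
          pDivUnits (ResidueField A) (FresBar N A) m ∧
        redUnit (redData3 N A q) (u : (FK N)ˣ) hu.2.2.1 hu.2.2.2 ∈
          pDivUnits (ResidueField A) (FresCusp N A (cusp3 N q)) m

end Stmt

/-! ### the three reductions over `K₀` -/

section Rho

variable (M' : ℕ) [NeZero M'] (q : ℕ) [NeZero q] (A : ValuationSubring Kb)
  (hQ : HallDvd (q ^ 2) (M' * q * q))

local notation "kA" => ResidueField A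
local notation "F₀" => modularFunctionFieldFullC (K0 A) (M' * q * q)

/-- `red₁` on `RwK0`, with values in `FresBar N A` -/
def rhoF1 : ↥(RwK0 A (M' * q * q)) →+* FresBar (M' * q * q) A :=
  (redDataBar (M' * q * q) A).red.comp
    (((mapK0Bar A (M' * q * q)).comp (RwK0 A (M' * q * q)).subtype).codRestrict
      (redDataBar (M' * q * q) A).Rw (fun x => (mem_Rw1K0_iff A (M' * q * q) x.1).1 x.2))

/-- `red₂` on `(redData2QK0).Rw`, with values in `FresBar N A` -/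
def rhoF2 : ↥(redData2QK0 A (M' * q * q) hQ).Rw →+* FresBar (M' * q * q) A :=
  (redData2Q (M' * q * q) A hQ).red.comp
    (((mapK0Bar A (M' * q * q)).comp (redData2QK0 A (M' * q * q) hQ).Rw.subtype).codRestrict
      (redData2Q (M' * q * q) A hQ).Rw (fun x => (mem_Rw2QK0_iff A (M' * q * q) hQ x.1).1 x.2))

/-- `red₃` on `Rw3K0`, with values in `FresCusp N A (cusp3 N q)` -/
def rhoF3 : ↥(Rw3K0 A (M' * q * q) q) →+* FresCusp (M' * q * q) A (cusp3 (M' * q * q) q) :=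
  (redData3 (M' * q * q) A q).red.comp
    (((mapK0Bar A (M' * q * q)).comp (Rw3K0 A (M' * q * q) q).subtype).codRestrict
      (redData3 (M' * q * q) A q).Rw
      (fun x => (mem_Rw3K0_iff_mapK0Bar A (M' * q * q) x.1).1 x.2))

theorem rhoF1_apply (x : ↥(RwK0 A (M' * q * q))) :
    rhoF1 M' q A x = (redDataBar (M' * q * q) A).red
      ⟨mapK0Bar A (M' * q * q) x.1, (mem_Rw1K0_iff A (M' * q * q) x.1).1 x.2⟩ := rfl

theorem rhoF2_apply (x : ↥(redData2QK0 A (M' * q * q) hQ).Rw) :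
    rhoF2 M' q A hQ x = (redData2Q (M' * q * q) A hQ).red
      ⟨mapK0Bar A (M' * q * q) x.1, (mem_Rw2QK0_iff A (M' * q * q) hQ x.1).1 x.2⟩ := rfl

theorem rhoF3_apply (x : ↥(Rw3K0 A (M' * q * q) q)) :
    rhoF3 M' q A x = (redData3 (M' * q * q) A q).red
      ⟨mapK0Bar A (M' * q * q) x.1, (mem_Rw3K0_iff_mapK0Bar A (M' * q * q) x.1).1 x.2⟩ := rfl

variable [Fact q.Prime]

theorem rhoF1_eq_zero_iff (x : ↥(RwK0 A (M' * q * q))) :
    rhoF1 M' q A x = 0 ↔ (x : F₀) ∈ (RwK0 A (M' * q * q)).nonunits := by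
  rw [← rhoK1_eq_zero_iff M' q A x, rhoK1_apply, ZeroMemClass.coe_eq_zero, rhoF1_apply]

theorem rhoF2_eq_zero_iff (x : ↥(redData2QK0 A (M' * q * q) hQ).Rw) :
    rhoF2 M' q A hQ x = 0 ↔ (x : F₀) ∈ (redData2QK0 A (M' * q * q) hQ).Rw.nonunits := by
  rw [← rhoK2_eq_zero_iff M' q A hQ x, rhoK2_apply, ZeroMemClass.coe_eq_zero, rhoF2_apply]

theorem rhoF3_eq_zero_iff (x : ↥(Rw3K0 A (M' * q * q) q)) :
    rhoF3 M' q A x = 0 ↔ (x : F₀) ∈ (Rw3K0 A (M' * q * q) q).nonunits := by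
  rw [← rhoK3_eq_zero_iff M' q A x, rhoK3_apply, ZeroMemClass.coe_eq_zero, rhoF3_apply]

end Rho

/-! ### constants reduce to constants -/

section Const

variable {N : ℕ} [NeZero N] (A : ValuationSubring Kb)

local notation "kA" => ResidueField A

/-- the reduction of a constant of `R₀` is a constant -/
theorem red_const {Ft : Type*} [Field Ft] [Algebra kA Ft] (R : RedData Kbar (FN N) kA Ft)
    (hRA : R.A = A) (c : R0 A)
    (h : mapK0Bar A N (algebraMap (K0 A) (modularFunctionFieldFullC (K0 A) N) (c : K0 A)) ∈ R.Rw) :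
    R.red ⟨_, h⟩ ∈ (algebraMap kA Ft).range := by
  have hc : ι0 A (c : K0 A) ∈ R.A := by rw [hRA]; exact c.2
  have h1 := R.red_algebraMap ⟨ι0 A (c : K0 A), hc⟩
  refine ⟨R.res ⟨_, hc⟩, ?_⟩
  rw [← h1]
  congr 1
  exact Subtype.ext (mapK0Bar_algebraMap A N (c : K0 A)).symm

end Const

/-! ### the assembly -/

section Main

variable (M' : ℕ) [NeZero M'] {q : ℕ} [NeZero q] (A : ValuationSubring Kb)

local notation "kA" => ResidueField A
local notation "F₀" => modularFunctionFieldFullC (K0 A) (M' * q * q)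

/-- **the `K₀`-rational lift** of an `I_A`-fixed three-unit. -/
theorem exists_lift (hq : q.Prime) (hQ : HallDvd (q ^ 2) (M' * q * q)) (m : ℕ)
    (u : pDivUnits Kb (FK (M' * q * q)) m)
    (hfix : ∀ σ ∈ A.inertiaSubgroupIn ℚ,
      galUnits (M' * q * q) σ (u : (FK (M' * q * q))ˣ) = (u : (FK (M' * q * q))ˣ))
    (hu : TriUnit A hQ (u : (FK (M' * q * q))ˣ)) :
    ∃ u₀ : F₀ˣ, mapK0Bar A (M' * q * q) (u₀ : F₀) =
        ((u : (FK (M' * q * q))ˣ) : FK (M' * q * q)) ∧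
      (∀ i', (u₀ : F₀) ∈ W3 A hQ i' ∧ (u₀ : F₀)⁻¹ ∈ W3 A hQ i') ∧
      Units.map (mapK0Bar A (M' * q * q) : _ →* FK (M' * q * q)) u₀ ∈
        pDivUnits Kb (FK (M' * q * q)) m := by
  haveI : Fact q.Prime := ⟨hq⟩
  -- `u` is `K₀`-rational
  obtain ⟨x0, hx0⟩ := Fermat.Agent.GL.RatLiftK0.exists_mapK0Bar_of_fixed A (M' * q * q)
    ((u : (FK (M' * q * q))ˣ) : FK (M' * q * q)) (fun σ hσ => by
      have := congrArg (fun v : (FK (M' * q * q))ˣ => (v : FK (M' * q * q))) (hfix σ hσ)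
      exact this)
  have hx00 : x0 ≠ 0 := by
    intro h0
    rw [h0, map_zero] at hx0
    exact (u : (FK (M' * q * q))ˣ).ne_zero hx0.symm
  refine ⟨Units.mk0 x0 hx00, hx0, ?_, ?_⟩
  · have hmap : mapK0Bar A (M' * q * q) ((Units.mk0 x0 hx00 : F₀ˣ) : F₀) =
        ((u : (FK (M' * q * q))ˣ) : FK (M' * q * q)) := hx0
    have hmapi : mapK0Bar A (M' * q * q) (((Units.mk0 x0 hx00 : F₀ˣ) : F₀)⁻¹) =
        (((u : (FK (M' * q * q))ˣ)⁻¹ : (FK (M' * q * q))ˣ) : FK (M' * q * q)) := by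
      rw [map_inv₀, hmap, Units.val_inv_eq_inv_val]
    intro i'
    fin_cases i'
    · refine ⟨?_, ?_⟩
      · show ((Units.mk0 x0 hx00 : F₀ˣ) : F₀) ∈ RwK0 A (M' * q * q)
        rw [mem_Rw1K0_iff, hmap]; exact hu.1.1
      · show ((Units.mk0 x0 hx00 : F₀ˣ) : F₀)⁻¹ ∈ RwK0 A (M' * q * q)
        rw [mem_Rw1K0_iff, hmapi]; exact hu.1.2
    · refine ⟨?_, ?_⟩
      · show ((Units.mk0 x0 hx00 : F₀ˣ) : F₀) ∈ (redData2QK0 A (M' * q * q) hQ).Rw
        rw [mem_Rw2QK0_iff, hmap]; exact hu.2.1.1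
      · show ((Units.mk0 x0 hx00 : F₀ˣ) : F₀)⁻¹ ∈ (redData2QK0 A (M' * q * q) hQ).Rw
        rw [mem_Rw2QK0_iff, hmapi]; exact hu.2.1.2
    · refine ⟨?_, ?_⟩
      · show ((Units.mk0 x0 hx00 : F₀ˣ) : F₀) ∈ Rw3K0 A (M' * q * q) q
        rw [Fermat.Agent.GL.W3.mem_Rw3K0_iff_mapK0Bar, hmap]; exact hu.2.2.1
      · show ((Units.mk0 x0 hx00 : F₀ˣ) : F₀)⁻¹ ∈ Rw3K0 A (M' * q * q) q
        rw [Fermat.Agent.GL.W3.mem_Rw3K0_iff_mapK0Bar, hmapi]; exact hu.2.2.2
  · have e : Units.map (mapK0Bar A (M' * q * q) : _ →* FK (M' * q * q)) (Units.mk0 x0 hx00) =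
        (u : (FK (M' * q * q))ˣ) := Units.ext hx0
    rw [e]
    exact u.2

set_option synthInstance.maxHeartbeats 400000 in
set_option maxHeartbeats 6400000 in
/-- **(NODE3)** at every good auxiliary level `M' q q`, `m` arbitrary. -/
theorem nodeHyp3 (hq : q.Prime) (hqM : ¬ q ∣ M') (hA : A.LiesOverPrime q)
    (hQ : HallDvd (q ^ 2) (M' * q * q))
    (h2 : q = 2 → 3 ∣ M') (h3 : q = 3 → 2 ∣ M')
    {r : ℕ} (hr : r.Prime) (hrN : r ∣ M') (hr3 : r % 3 = 2) (hr4 : r % 4 = 3) (m : ℕ) :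
    NodeHyp3 (N := M' * q * q) A hQ m := by
  haveI : Fact q.Prime := ⟨hq⟩
  intro u hfix hu
  obtain ⟨u₀, hmap, huW, hK⟩ := exists_lift M' A hq hQ m u hfix hu
  have hu1 : (u₀ : F₀) ∈ RwK0 A (M' * q * q) := (huW 0).1
  have hu2 : (u₀ : F₀) ∈ (redData2QK0 A (M' * q * q) hQ).Rw := (huW 1).1
  have hu3 : (u₀ : F₀) ∈ Rw3K0 A (M' * q * q) q := (huW 2).1
  refine ⟨fun Q => ?_, fun Q => ?_, fun Q => ?_⟩
  · -- the first component
    have h1 := Comp.dvd_ord_component A M' hq hqM hA hQ h2 h3 hr hrN hr3 hr4 0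
      (rhoF1 M' q A) (rhoF1_eq_zero_iff M' q A)
      (fun c h => red_const A (redDataBar (M' * q * q) A) rfl c _) Q m u₀ huW hK
    have e : ((redUnit (redDataBar (M' * q * q) A) (u : (FK (M' * q * q))ˣ) hu.1.1 hu.1.2 :
        (FresBar (M' * q * q) A)ˣ) : FresBar (M' * q * q) A) =
        rhoF1 M' q A ⟨(u₀ : F₀), hu1⟩ := by
      rw [coe_redUnit, rhoF1_apply]
      congr 1
      exact Subtype.ext hmap.symm
    rw [e]
    exact h1
  · -- the second component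
    have h1 := Comp.dvd_ord_component A M' hq hqM hA hQ h2 h3 hr hrN hr3 hr4 1
      (rhoF2 M' q A hQ) (rhoF2_eq_zero_iff M' q A hQ)
      (fun c h => red_const A (redData2Q (M' * q * q) A hQ) rfl c _) Q m u₀ huW hK
    have e : ((redUnit (redData2Q (M' * q * q) A hQ) (u : (FK (M' * q * q))ˣ) hu.2.1.1
        hu.2.1.2 : (FresBar (M' * q * q) A)ˣ) : FresBar (M' * q * q) A) =
        rhoF2 M' q A hQ ⟨(u₀ : F₀), hu2⟩ := by
      rw [coe_redUnit, rhoF2_apply]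
      congr 1
      exact Subtype.ext hmap.symm
    rw [e]
    exact h1
  · -- the third component
    have h1 := Comp.dvd_ord_component A M' hq hqM hA hQ h2 h3 hr hrN hr3 hr4 2
      (rhoF3 M' q A) (rhoF3_eq_zero_iff M' q A)
      (fun c h => red_const A (redData3 (M' * q * q) A q) rfl c _) Q m u₀ huW hK
    have e : ((redUnit (redData3 (M' * q * q) A q) (u : (FK (M' * q * q))ˣ) hu.2.2.1
        hu.2.2.2 : (FresCusp (M' * q * q) A (cusp3 (M' * q * q) q))ˣ) :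
        FresCusp (M' * q * q) A (cusp3 (M' * q * q) q)) =
        rhoF3 M' q A ⟨(u₀ : F₀), hu3⟩ := by
      rw [coe_redUnit, rhoF3_apply]
      congr 1
      exact Subtype.ext hmap.symm
    rw [e]
    exact h1

end Main

end Fermat.Agent.GE8.SQ.Node3b
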