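/-
GATE-E (S59) / E8.SQ / M2 NODE3 (helper92), file 7: **`Stmt3K.NodeHyp3KStmt`, binder-free.**

* `redF3U_const` : helper15's `redF3U : Rw3K0 →+* k(X₀(M'))` sends the constants `R₀` to constants;
* `d3_of_good`   : the `(D3)` conjunct — the third reduction of an `I_A`-fixed three-unit is
                   `ub(t^N)` with `ub ∈ k(X₀(M'))ˣ` `m`-divisible at every place (the component
                   lemma `Comp.dvd_ord_component` at `ρ := redF3U`);
* **`nodeHyp3K`**, **`nodeHyp3KStmt`** : the seam of helper39/helper97 `Stmt3K`.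
-/
import Fermat.Agent.GE8.SQ.Node3b.Main
import Fermat.Agent.GE8.SQ.Stmt3K
import Fermat.Agent.GL.Fibre.RedInCThm

set_option autoImplicit false
set_option linter.unusedSectionVars false
set_option linter.unusedVariables false

noncomputable section

namespace Fermat.Agent.GE8.SQ.Node3b.Final

open ModularCurve IsLocalRing AlgebraicCurve
open Fermat.Agent.S24
open Fermat.Agent.GL.Val.GaussK0 Fermat.Agent.GL.Val.SecondK0 Fermat.Agent.GL.Val.SecondK0Hall
open Fermat.Agent.GL.Val.ThirdK0 Fermat.Agent.GL.Val.L1eAsmK0 Fermat.Agent.GL.Table.K0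
open Fermat.Agent.GL.Local.InertiaField
open Fermat.Agent.GJ.KumGroup Fermat.Agent.GJ.J1 Fermat.Agent.GJ.J1.Val
open Fermat.Agent.GJ.Kum.KumType
open Fermat.Agent.GK.AL Fermat.Agent.GL.AL Fermat.Agent.GL.W3 Fermat.Agent.GL.CuspVal
open Fermat.Agent.GK.UqKronecker
open Fermat.Agent.Common_helper32
open Fermat.Agent.GL.RedInC Fermat.Agent.GL.RedInCThm
open Fermat.Agent.GB.A.FP
open Fermat.Agent.GL.Final.GeomGate
open Fermat.Agent.GE8.SQ.Stmt Fermat.Agent.GE8.SQ.Stmt3 Fermat.Agent.GE8.SQ.Stmt3K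

section D3

variable (M' : ℕ) [NeZero M'] {q : ℕ} [hqF : Fact q.Prime] [NeZero q] (A : ValuationSubring Kb)

local notation "kA" => ResidueField A
local notation "F₀" => modularFunctionFieldFullC (K0 A) (M' * q * q)

/-- `redF3U` sends the constants `R₀` to constants. -/
theorem redF3U_const (hqM : ¬ q ∣ M') (hA : A.LiesOverPrime q) (c : R0 A)
    (h : algebraMap (R0 A) F₀ c ∈ Rw3K0 A (M' * q * q) q) :
    redF3U M' q A hqM hA ⟨_, h⟩ ∈ (algebraMap kA (FresBar M' A)).range := by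
  obtain ⟨a, ha⟩ := red_const A (redData3 (M' * q * q) A q) rfl c
    ((Fermat.Agent.GL.W3.mem_Rw3K0_iff_mapK0Bar A (M' * q * q) q _).1 h)
  refine ⟨a, ?_⟩
  apply emb3_injective M' q A
  rw [emb3_apply, emb3_apply, qExpand_redF3U, rhoK3_apply]
  have e1 : (((algebraMap kA (FresBar M' A) a : FresBar M' A)) : LaurentSeries kA) =
      algebraMap kA (LaurentSeries kA) a := rfl
  rw [e1, algebraMap_laurentSeries_eq_single, qExpand_single, mul_zero,
    ← algebraMap_laurentSeries_eq_single]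
  have e2 : (((algebraMap kA (FresCusp (M' * q * q) A (cusp3 (M' * q * q) q)) a :
      FresCusp (M' * q * q) A (cusp3 (M' * q * q) q))) : LaurentSeries kA) =
      algebraMap kA (LaurentSeries kA) a := rfl
  rw [← e2, ha]
  rfl

set_option synthInstance.maxHeartbeats 400000 in
set_option maxHeartbeats 6400000 in
/-- **(D3)** at every good auxiliary level. -/
theorem d3_of_good (hqM : ¬ q ∣ M') (hA : A.LiesOverPrime q)
    (hQ : HallDvd (q ^ 2) (M' * q * q))
    (h2 : q = 2 → 3 ∣ M') (h3 : q = 3 → 2 ∣ M')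
    {r : ℕ} (hr : r.Prime) (hrN : r ∣ M') (hr3 : r % 3 = 2) (hr4 : r % 4 = 3) (m : ℕ)
    (u : pDivUnits Kb (FK (M' * q * q)) m)
    (hfix : ∀ σ ∈ A.inertiaSubgroupIn ℚ,
      galUnits (M' * q * q) σ (u : (FK (M' * q * q))ˣ) = (u : (FK (M' * q * q))ˣ))
    (hu : IsU3 (M' * q) q A hQ (u : (FK (M' * q * q))ˣ)) :
    D3 A hQ m hu := by
  have hq : q.Prime := hqF.out
  obtain ⟨u₀, hmap, huW, hK⟩ := exists_lift M' A hq hQ m u hfix hu
  have hu3 : (u₀ : F₀) ∈ Rw3K0 A (M' * q * q) q := (huW 2).1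
  have hu3' : (u₀ : F₀)⁻¹ ∈ Rw3K0 A (M' * q * q) q := (huW 2).2
  refine ⟨redF3U M' q A hqM hA ⟨(u₀ : F₀), hu3⟩, ?_, fun Q => ?_, ?_⟩
  · -- a unit does not reduce to `0`
    intro h0
    have hn := (redF3U_eq_zero_iff M' q A hqM hA ⟨(u₀ : F₀), hu3⟩).1 h0
    have h1 : (Rw3K0 A (M' * q * q) q).valuation (u₀ : F₀) < 1 :=
      (ValuationSubring.mem_nonunits_iff _).1 hn
    have h2' : (Rw3K0 A (M' * q * q) q).valuation (u₀ : F₀)⁻¹ ≤ 1 :=
      (ValuationSubring.valuation_le_one_iff _ _).2 hu3'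
    have h3' : (Rw3K0 A (M' * q * q) q).valuation ((u₀ : F₀) * (u₀ : F₀)⁻¹) < 1 := by
      rw [map_mul]
      exact mul_lt_one_of_lt_of_le h1 h2'
    rw [mul_inv_cancel₀ u₀.ne_zero, map_one] at h3'
    exact lt_irrefl _ h3'
  · exact Comp.dvd_ord_component A M' hq hqM hA hQ h2 h3 hr hrN hr3 hr4 2
      (redF3U M' q A hqM hA) (redF3U_eq_zero_iff M' q A hqM hA)
      (fun c h => redF3U_const M' A hqM hA c h) Q m u₀ huW hK
  · rw [qExpand_redF3U, rhoK3_apply]
    show (((redData3 (M' * q * q) A q).red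
      ⟨((u : (FK (M' * q * q))ˣ) : FK (M' * q * q)), hu.2.2.1⟩ :
        FresCusp (M' * q * q) A (cusp3 (M' * q * q) q)) : LaurentSeries kA) = _
    congr 2
    exact Subtype.ext hmap.symm

set_option synthInstance.maxHeartbeats 400000 in
set_option maxHeartbeats 6400000 in
/-- **(M2 NODE3), corrected seam** at every good auxiliary level, `m` arbitrary. -/
theorem nodeHyp3K (hqM : ¬ q ∣ M') (hA : A.LiesOverPrime q)
    (hQ : HallDvd (q ^ 2) (M' * q * q))
    (h2 : q = 2 → 3 ∣ M') (h3 : q = 3 → 2 ∣ M')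
    {r : ℕ} (hr : r.Prime) (hrN : r ∣ M') (hr3 : r % 3 = 2) (hr4 : r % 4 = 3) (m : ℕ) :
    NodeHyp3K (M' := M') (q := q) A hQ m := by
  have hq : q.Prime := hqF.out
  intro u hfix hu
  have key := nodeHyp3 M' A hq hqM hA hQ h2 h3 hr hrN hr3 hr4 m u hfix hu
  exact ⟨key.1, key.2.1, d3_of_good M' A hqM hA hQ h2 h3 hr hrN hr3 hr4 m u hfix hu⟩

end D3

/-- **`Stmt3K.NodeHyp3KStmt`.** -/
theorem nodeHyp3KStmt : NodeHyp3KStmt := by
  intro p _ hp2 M' q _ _ hqp hgood A hA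
  have hq : q.Prime := Fact.out
  haveI : NeZero q := ⟨hq.ne_zero⟩
  have hqM : ¬ q ∣ M' := fun h => hgood.2.1 (by rw [pow_two]; exact mul_dvd_mul_right h q)
  obtain ⟨r, hr, hr12, hrq, hrL, -⟩ := hgood.2.2.1
  have hrM : r ∣ M' := ((Nat.Prime.dvd_mul hr).1 hrL).resolve_right
    (fun h => hrq ((Nat.prime_dvd_prime_iff_eq hr hq).1 h))
  have h2 : q = 2 → 3 ∣ M' := fun e =>
    ((Nat.Prime.dvd_mul Nat.prime_three).1 (hgood.2.2.2.1 e)).resolve_right
      (fun h => by rw [e] at h; omega)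
  have h3 : q = 3 → 2 ∣ M' := fun e =>
    ((Nat.Prime.dvd_mul Nat.prime_two).1 (hgood.2.2.2.2 e)).resolve_right
      (fun h => by rw [e] at h; omega)
  exact nodeHyp3K M' A hqM hA (hallDvd_sq_of_good Fact.out hgood) h2 h3 hr hrM
    (by omega) (by omega) p

end Fermat.Agent.GE8.SQ.Node3b.Final
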