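/-
GATE-E (S59) / E8.SQ / M2 NODE3 (helper92), file 1: the ABSTRACT chart step, component-free.

`B ⊂ F` a noetherian integrally closed chart ring (fraction field `F`), `W ⊇ B` a valuation subring
of `F` (a vertical valuation `w_i`), `ρ : W →+* Fb` its reduction (kernel `𝔪_W`), `Q` a place of
`Fb / k` with `ρ(B) ⊆ O_Q`, `𝔪 ⊇ B ∩ ρ⁻¹(𝔪_Q)` a prime containing the centre of `Q` on `B`.

* `dvd_ord_of_ufd_abs` : IF `B_𝔪` is factorial and `u` is, at every height-one prime through `𝔪`,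
  a unit times an `m`-th power (`hord`), and `u` is a `W`-unit, THEN `m ∣ ord_Q (ρ u)`.
  (No Dedekind coordinate ring, no surjectivity, no maximality of the centre: twin of helper84's
  `GB/A/A4/ChartStep`.)
* `map_mem_of_mem_icRing` : `ρ(icRing R S) ⊆ O_Q` as soon as `ρ(R) ⊆ O_Q` and `ρ(S) ⊆ O_Q`
  (through helper46's composite valuation ring `CompBranch.comp`).
* `exists_maximal_centre` : a MAXIMAL ideal containing the centre of `Q`.
* `dvd_ord_of_forall_ufd` : the three together, for a chart ring `B = icRing R S`.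
-/
import Fermat.Prelude.Def_AlgebraicCurve_DivisorClassGroup
import Fermat.Agent.GL.Frame.KummerDatum
import Fermat.Agent.GL.Frame.FrameInst
import Fermat.Agent.GL.Chain.CompBranch
import Fermat.Agent.GB.A.A4.ChartStep

set_option autoImplicit false
set_option linter.unusedSectionVars false

noncomputable section

namespace Fermat.Agent.GE8.SQ.Node3b.Abs

open AlgebraicCurve IsLocalRing
open Fermat.Agent.GL.KrullHeightOne Fermat.Agent.GL.Frame.HeightOne Fermat.Agent.GL.Frame.Kummer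
open Fermat.Agent.GL.Frame.Inst Fermat.Agent.GL.CompBranch
open Fermat.Agent.GB.A4.ChartStep

/-! ### places: units have order `0` -/

section Ord

variable {k Fb : Type*} [Field k] [Field Fb] [Algebra k Fb]

/-- an element of `O_Q ∖ 𝔪_Q` has order `0`. -/
theorem ord_eq_zero_of_not_mem_nonunits (Q : Place k Fb) {x : Fb}
    (hx : x ∈ Q.toValuationSubring) (hx' : x ∉ Q.toValuationSubring.nonunits) :
    Q.ord x = 0 := by
  have h1 : (⟨x, hx⟩ : Q.toValuationSubring) ∉ maximalIdeal Q.toValuationSubring := fun h =>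
    hx' ((ValuationSubring.coe_mem_nonunits_iff (A := Q.toValuationSubring)
      (a := ⟨x, hx⟩)).2 h)
  rw [mem_maximalIdeal, mem_nonunits_iff, not_not] at h1
  obtain ⟨v, hv⟩ := h1
  have := Q.ord_coe_unit v
  rw [hv] at this
  exact this

end Ord

/-! ### the abstract chart step -/

section Step

variable {F : Type*} [Field F] {B : Subring F} [IsFractionRing B F] [IsNoetherianRing B]
  [IsIntegrallyClosed B]

/-- **the abstract chart step**: factorial local ring at the centre of `Q` ⟹ `m ∣ ord_Q (ρ u)`. -/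
theorem dvd_ord_of_ufd_abs (W : ValuationSubring F) (hBW : ∀ b : B, (b : F) ∈ W)
    {k Fb : Type*} [Field k] [Field Fb] [Algebra k Fb]
    (ρ : W →+* Fb) (hρ : ∀ x : W, ρ x = 0 ↔ (x : F) ∈ W.nonunits)
    (Q : Place k Fb) (𝔫 : Ideal B) [𝔫.IsPrime]
    (hQB : ∀ b : B, ρ ⟨(b : F), hBW b⟩ ∈ Q.toValuationSubring)
    (h𝔫 : ∀ b : B, ρ ⟨(b : F), hBW b⟩ ∈ Q.toValuationSubring.nonunits → b ∈ 𝔫)
    [UniqueFactorizationMonoid (Localization.AtPrime 𝔫)]
    (m : ℕ) (u : F) (hu0 : u ≠ 0) (hu : u ∈ W) (hu' : u⁻¹ ∈ W)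
    (hord : ∀ 𝔭 : HtOne B, 𝔭.1 ≤ 𝔫 → ∃ z : F, z ≠ 0 ∧ UnitAt 𝔭 (u * z ^ m)) :
    (m : ℤ) ∣ Q.ord (ρ ⟨u, hu⟩) := by
  -- the Kummer datum
  obtain ⟨g₁, c, s, hc, hs, hgcs⟩ := exists_kummer_datum_of_ufd 𝔫 (Localization.AtPrime 𝔫) m
    u hu0 hord
  have hgcs1 : g₁ ^ m * u * (s : F) = (c : F) := hgcs
  -- `s`, `c` are `W`-units: their reductions are not in `𝔪_Q`, in particular nonzero
  have hsW : (s : F) ∈ W := hBW s
  have hcW : (c : F) ∈ W := hBW c
  have hρs : ρ ⟨(s : F), hsW⟩ ∉ Q.toValuationSubring.nonunits := fun hh => hs (h𝔫 s hh)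
  have hρc : ρ ⟨(c : F), hcW⟩ ∉ Q.toValuationSubring.nonunits := fun hh => hc (h𝔫 c hh)
  have hρs0 : ρ ⟨(s : F), hsW⟩ ≠ 0 := fun h0 => hρs (by
    rw [h0]; exact (ValuationSubring.mem_nonunits_iff _).2 (by rw [map_zero]; exact zero_lt_one))
  have hρc0 : ρ ⟨(c : F), hcW⟩ ≠ 0 := fun h0 => hρc (by
    rw [h0]; exact (ValuationSubring.mem_nonunits_iff _).2 (by rw [map_zero]; exact zero_lt_one))
  have hs' : (s : F)⁻¹ ∈ W :=
    inv_mem_of_not_mem_nonunits W hsW fun hh => hρs0 ((hρ _).2 hh)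
  have hc' : (c : F)⁻¹ ∈ W :=
    inv_mem_of_not_mem_nonunits W hcW fun hh => hρc0 ((hρ _).2 hh)
  have hs0 : (s : F) ≠ 0 := fun h0 => hs (by
    have : s = 0 := Subtype.ext h0
    rw [this]; exact Ideal.zero_mem _)
  have hc0 : (c : F) ≠ 0 := fun h0 => hc (by
    have : c = 0 := Subtype.ext h0
    rw [this]; exact Ideal.zero_mem _)
  -- `g` is a `W`-unit (`m = 0`: replace `g` by `1`)
  obtain ⟨g, hgcs', hg0, hgW, hgW'⟩ : ∃ g : F, g ^ m * u * (s : F) = (c : F) ∧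
      g ≠ 0 ∧ g ∈ W ∧ g⁻¹ ∈ W := by
    by_cases hm : m = 0
    · refine ⟨1, ?_, one_ne_zero, W.one_mem, by rw [inv_one]; exact W.one_mem⟩
      have := hgcs1
      rw [hm, pow_zero] at this
      rw [hm, pow_zero]
      exact this
    · have hg0 : g₁ ≠ 0 := by
        intro h0
        have := hgcs1
        rw [h0, zero_pow hm, zero_mul, zero_mul] at this
        exact hc0 this.symm
      refine ⟨g₁, hgcs1, hg0, ?_⟩
      refine unit_of_pow_mul W hm (a := u * (s : F)) (c := (c : F))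
        (mul_ne_zero hu0 hs0) hc0 (W.mul_mem _ _ hu hsW) ?_ hcW hc' ?_
      · rw [mul_inv]
        exact W.mul_mem _ _ hu' hs'
      · rw [← mul_assoc]
        exact hgcs1
  -- apply `ρ`
  have hprod : (⟨g, hgW⟩ : W) ^ m * ⟨u, hu⟩ * ⟨(s : F), hsW⟩ = ⟨(c : F), hcW⟩ :=
    Subtype.ext hgcs'
  have hρeq := congrArg ρ hprod
  rw [map_mul, map_mul, map_pow] at hρeq
  have hub : ρ ⟨u, hu⟩ ≠ 0 := by
    rw [Ne, hρ]
    exact not_mem_nonunits_of_mem W hu0 hu hu'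
  have hgb : ρ ⟨g, hgW⟩ ≠ 0 := by
    rw [Ne, hρ]
    exact not_mem_nonunits_of_mem W hg0 hgW hgW'
  have h1 := congrArg Q.ord hρeq
  rw [Place.ord_mul _ (mul_ne_zero (pow_ne_zero m hgb) hub) hρs0,
    Place.ord_mul _ (pow_ne_zero m hgb) hub,
    ord_eq_zero_of_not_mem_nonunits Q (hQB s) hρs,
    ord_eq_zero_of_not_mem_nonunits Q (hQB c) hρc, ← zpow_natCast, Place.ord_zpow] at h1
  exact ⟨-Q.ord (ρ ⟨g, hgW⟩), by linarith⟩

end Step

/-! ### the reduction of a chart ring lands in `O_Q`; a maximal ideal over the centre -/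

section Centre

variable {F : Type*} [Field F] (W : ValuationSubring F) {Fb : Type*} [Field Fb] (ρ : W →+* Fb)
  (hρ : ∀ x : W, ρ x = 0 ↔ (x : F) ∈ W.nonunits) (U : ValuationSubring Fb)

include hρ in
theorem map_eq_zero_of_not_isUnit (z : W) (hz : ¬ IsUnit z) : ρ z = 0 := by
  rw [hρ, ValuationSubring.coe_mem_nonunits_iff, mem_maximalIdeal, mem_nonunits_iff]
  exact hz

include hρ in
/-- **`ρ(icRing R S) ⊆ U`** as soon as `ρ(R) ⊆ U` and `ρ(S) ⊆ U`. -/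
theorem map_mem_of_mem_icRing (R : Type*) [CommRing R] [Algebra R F] (S : Set F)
    (hR : ∀ r : R, ∃ h : algebraMap R F r ∈ W, ρ ⟨_, h⟩ ∈ U)
    (hS : ∀ x ∈ S, ∃ h : x ∈ W, ρ ⟨x, h⟩ ∈ U) {z : F} (hz : z ∈ icRing R S) :
    ∃ h : z ∈ W, ρ ⟨z, h⟩ ∈ U := by
  have hr := map_eq_zero_of_not_isUnit W ρ hρ
  exact (mem_comp W ρ hr U).1 (mem_valuationSubring_of_mem_icRing R S (comp W ρ hr U)
    (fun r => (mem_comp W ρ hr U).2 (hR r)) (fun x hx => (mem_comp W ρ hr U).2 (hS x hx)) hz)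

/-- **a maximal ideal of `B` containing the centre of `U`.** -/
theorem exists_maximal_centre {B : Subring F} (hBW : ∀ b : B, (b : F) ∈ W)
    (hQB : ∀ b : B, ρ ⟨(b : F), hBW b⟩ ∈ U) :
    ∃ 𝔪 : Ideal B, 𝔪.IsMaximal ∧ ∀ b : B, ρ ⟨(b : F), hBW b⟩ ∈ U.nonunits → b ∈ 𝔪 := by
  let incl : B →+* W := (B.subtype).codRestrict W.toSubring hBW
  let ψ : B →+* U := (ρ.comp incl).codRestrict U.toSubring hQB
  have hne : (maximalIdeal U).comap ψ ≠ ⊤ := (Ideal.comap_isPrime ψ (maximalIdeal U)).ne_top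
  obtain ⟨𝔪, h𝔪, hle⟩ := Ideal.exists_le_maximal _ hne
  refine ⟨𝔪, h𝔪, fun b hb => hle ?_⟩
  rw [Ideal.mem_comap, ← ValuationSubring.coe_mem_nonunits_iff]
  exact hb

end Centre

/-! ### the chart step for a chart ring `icRing R S` -/

section Chart

variable {F : Type*} [Field F] {R : Type*} [CommRing R] [Algebra R F] (S : Set F)
  [IsFractionRing (icRing R S) F] [IsNoetherianRing (icRing R S)]
  [IsIntegrallyClosed (icRing R S)]

/-- **the chart step on `B = icRing R S`**: if `B` is factorial at every maximal ideal containing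
the centre of `Q`, then `m ∣ ord_Q (ρ u)` for every `W`-unit `u` with `m ∣ div u` on `B`. -/
theorem dvd_ord_of_forall_ufd (W : ValuationSubring F)
    (hBW : ∀ b : icRing R S, (b : F) ∈ W)
    {k Fb : Type*} [Field k] [Field Fb] [Algebra k Fb]
    (ρ : W →+* Fb) (hρ : ∀ x : W, ρ x = 0 ↔ (x : F) ∈ W.nonunits) (Q : Place k Fb)
    (hR : ∀ r : R, ∃ h : algebraMap R F r ∈ W, ρ ⟨_, h⟩ ∈ Q.toValuationSubring)
    (hS : ∀ x ∈ S, ∃ h : x ∈ W, ρ ⟨x, h⟩ ∈ Q.toValuationSubring)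
    (hufd : ∀ 𝔪 : Ideal (icRing R S), 𝔪.IsMaximal →
      (∀ b : icRing R S, ρ ⟨(b : F), hBW b⟩ ∈ Q.toValuationSubring.nonunits → b ∈ 𝔪) →
      ∃ _ : 𝔪.IsPrime, UniqueFactorizationMonoid (Localization.AtPrime 𝔪))
    (m : ℕ) (u : F) (hu0 : u ≠ 0) (hu : u ∈ W) (hu' : u⁻¹ ∈ W)
    (hord : ∀ 𝔭 : HtOne (icRing R S), ∃ z : F, z ≠ 0 ∧ UnitAt 𝔭 (u * z ^ m)) :
    (m : ℤ) ∣ Q.ord (ρ ⟨u, hu⟩) := by
  have hQB : ∀ b : icRing R S, ρ ⟨(b : F), hBW b⟩ ∈ Q.toValuationSubring := fun b =>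
    (map_mem_of_mem_icRing W ρ hρ Q.toValuationSubring R S hR hS b.2).2
  obtain ⟨𝔪, h𝔪, hc⟩ := exists_maximal_centre W ρ Q.toValuationSubring hBW hQB
  obtain ⟨hp, hU⟩ := hufd 𝔪 h𝔪 hc
  exact dvd_ord_of_ufd_abs W hBW ρ hρ Q 𝔪 hQB hc m u hu0 hu hu' (fun 𝔭 _ => hord 𝔭)

end Chart

end Fermat.Agent.GE8.SQ.Node3b.Abs
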